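/-
S12lib / Loc / VeluLocal  (helper6) — S12, block (I): the local structure of Vélu's model at `ℓ ≠ p`.

`W : WeierstrassCurve ℤ`, `E = (W.map (Int.castRingHom ℚ))⁄ℚ̄`, `A ∣ ℓ` a place of `ℚ̄`, `ℓ ≠ p`
a prime of multiplicative reduction (`ℓ ∣ Δ`, `ℓ ∤ c₄`), `Q ∈ E(ℚ̄)` of exact odd prime order `p`.

* `inZero_iff_exists_redPt`, `inZero_add`, `inZero_nsmul`, `not_inZero_nsmul` : on torsion of order
  prime to `ℓ` the zero component `E⁰` is the set of points with a (nonsingular) reduction; it is a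
  subgroup;
* `val_veluC4_eq_one`  : Vélu's `c₄(E/⟨Q⟩)` is an `ℓ`-unit, in both cases (`Q ∈ E⁰`: `c₄' = p⁴c₄` on the
  nodal cubic, or `240 = 0`; `Q ∉ E⁰`: all terms of Vélu's `t` vanish at the node), for all `ℓ ≠ p`;
* `val_veluPsi_eq_one` : `∏ψ₂(kQ)` is an `ℓ`-unit if `Q ∈ E⁰`, for all `ℓ ≠ p` (including `2, 3`);
* `val_veluPsi_lt_one` : it is a non-unit if `Q ∉ E⁰`;
* `val_veluDisc`       : `v(c₄'³ - c₆'²) = v(1728) v(Δ)^p` if `Q ∈ E⁰`.
-/
import Mathlib
import Fermat.Agent.S15lib.Dict.EL2.Main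
import Fermat.Agent.S15lib.Dict.EL2.Small
import Fermat.Agent.S15lib.Dict.EL2.Glue

set_option autoImplicit false

namespace Fermat.Agent.S12lib.Loc

open IsLocalRing WeierstrassCurve WeierstrassCurve.Affine WeierstrassCurve.Affine.Point
open Fermat.Agent.S05lib Fermat.Agent.S41lib.NE Fermat.Agent.S58lib.Red Fermat.Agent.S58lib.Mult
open Fermat.Agent.S15lib.Dict Fermat.Agent.S15lib.Dict.EL2

local notation "Qb" => AlgebraicClosure ℚ

section ZeroComp

variable (W : WeierstrassCurve ℤ) (A : ValuationSubring Qb)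

/-- on torsion of order a unit at `A`, the zero component is the set of points with a reduction -/
theorem inZero_iff_exists_redPt {n : ℕ} (hn : A.valuation ((n : ℕ) : Qb) = 1)
    {P : ((W.map (Int.castRingHom ℚ))⁄Qb).Point} (hP : n • P = 0) :
    W.InZeroComponentAt A P ↔
      ∃ Pb : (W.map (Int.castRingHom (ResidueField A))).toAffine.Point, RedPt A P Pb := by
  classical
  have hR := redCurve_int_cast W A
  constructor
  · rintro (h0 | ⟨x, y, hns, rfl, hx | ⟨hx, hy, hnsb⟩⟩)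
    · exact ⟨0, by rw [h0]; exact trivial⟩
    · exfalso
      apply hx
      rw [← A.valuation_le_one_iff]
      exact val_x_le_one_of_nsmul_eq_zero hR.integralModel hns hn hP
    · exact ⟨Point.some _ _ hnsb, Res.mk ⟨x, hx⟩, Res.mk ⟨y, hy⟩⟩
  · rintro ⟨Pb, hPb⟩
    rcases P with _ | ⟨x, y, h⟩
    · exact Or.inl rfl
    · rcases Pb with _ | ⟨xb, yb, hb⟩
      · exact hPb.elim
      · obtain ⟨hx, hy⟩ := hPb
        have ex : residue A ⟨x, hx.mem⟩ = xb := (Res.mk ⟨x, hx.mem⟩).unique hx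
        have ey : residue A ⟨y, hy.mem⟩ = yb := (Res.mk ⟨y, hy.mem⟩).unique hy
        refine Or.inr ⟨x, y, h, rfl, Or.inr ⟨hx.mem, hy.mem, ?_⟩⟩
        rw [ex, ey]
        exact hb

theorem inZero_add {n : ℕ} (hn : A.valuation ((n : ℕ) : Qb) = 1)
    {P Q : ((W.map (Int.castRingHom ℚ))⁄Qb).Point} (hP : n • P = 0) (hQ : n • Q = 0)
    (hzP : W.InZeroComponentAt A P) (hzQ : W.InZeroComponentAt A Q) :
    W.InZeroComponentAt A (P + Q) := by
  classical
  have hR := redCurve_int_cast W A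
  obtain ⟨Pb, hPb⟩ := (inZero_iff_exists_redPt W A hn hP).1 hzP
  obtain ⟨Qb', hQb⟩ := (inZero_iff_exists_redPt W A hn hQ).1 hzQ
  refine (inZero_iff_exists_redPt W A hn (by rw [nsmul_add, hP, hQ, add_zero])).2
    ⟨Pb + Qb', RedPt.add hR hn hPb hQb hP hQ⟩

theorem inZero_nsmul {n : ℕ} (hn : A.valuation ((n : ℕ) : Qb) = 1)
    {P : ((W.map (Int.castRingHom ℚ))⁄Qb).Point} (hP : n • P = 0)
    (hzP : W.InZeroComponentAt A P) (k : ℕ) : W.InZeroComponentAt A (k • P) := by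
  classical
  have hR := redCurve_int_cast W A
  obtain ⟨Pb, hPb⟩ := (inZero_iff_exists_redPt W A hn hP).1 hzP
  refine (inZero_iff_exists_redPt W A hn (by rw [smul_comm, hP, nsmul_zero])).2
    ⟨k • Pb, RedPt.nsmul hR hn hPb hP k⟩

/-- a point of prime order `p` (a unit at `A`) outside the zero component: so are its nonzero
multiples -/
theorem not_inZero_nsmul {p : ℕ} (hp : p.Prime) (hvp : A.valuation ((p : ℕ) : Qb) = 1)
    {Q : ((W.map (Int.castRingHom ℚ))⁄Qb).Point} (hpQ : p • Q = 0)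
    (hQ : ¬ W.InZeroComponentAt A Q) {k : ℕ} (hk : ¬ p ∣ k) :
    ¬ W.InZeroComponentAt A (k • Q) := by
  intro hz
  apply hQ
  have hcop : Nat.Coprime k p := (Nat.Coprime.symm ((Nat.Prime.coprime_iff_not_dvd hp).2 hk))
  -- `k m ≡ 1 mod p`
  obtain ⟨m, -, hm⟩ := Nat.exists_mul_mod_eq_one_of_coprime hcop hp.one_lt
  have h1 := inZero_nsmul W A hvp (by rw [smul_comm, hpQ, nsmul_zero]) hz m
  have h2 : m • k • Q = Q := by
    have e : k * m = p * (k * m / p) + 1 := by
      have := Nat.div_add_mod (k * m) p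
      rw [hm] at this
      exact this.symm
    rw [← mul_nsmul, e, add_nsmul, mul_nsmul, hpQ, nsmul_zero, zero_add, one_nsmul]
  rwa [h2] at h1

end ZeroComp

section Node

variable (W : WeierstrassCurve ℤ) (A : ValuationSubring Qb)

/-- an integral point outside the zero component: the term `6x² + b₂x + b₄` of Vélu's `t` reduces
to `0` (it is `-2F_x + a₁F_y`, and `F_x = F_y = 0` at the node) -/
theorem val_veluTerm_lt_one {P : ((W.map (Int.castRingHom ℚ))⁄Qb).Point} (hP0 : P ≠ 0)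
    (hx : ptX P ∈ A) (hy : ptY P ∈ A) (hnz : ¬ W.InZeroComponentAt A P) :
    A.valuation (6 * ptX P ^ 2 + ((W.map (Int.castRingHom ℚ))⁄Qb).b₂ * ptX P +
      ((W.map (Int.castRingHom ℚ))⁄Qb).b₄) < 1 := by
  classical
  have hR := redCurve_int_cast W A
  rcases P with _ | ⟨x, y, h⟩
  · exact absurd rfl hP0
  · have hx' : x ∈ A := hx
    have hy' : y ∈ A := hy
    have hrx : Res A x (residue A ⟨x, hx'⟩) := Res.mk ⟨x, hx'⟩
    have hry : Res A y (residue A ⟨y, hy'⟩) := Res.mk ⟨y, hy'⟩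
    have heq := hR.equation hrx hry h.1
    have hsing : ¬ (W.map (Int.castRingHom (ResidueField A))).toAffine.Nonsingular
        (residue A ⟨x, hx'⟩) (residue A ⟨y, hy'⟩) := by
      intro hns
      exact hnz (Or.inr ⟨x, y, h, rfl, Or.inr ⟨hx', hy', hns⟩⟩)
    rw [Affine.nonsingular_iff, not_and_or] at hsing
    have hpart := hsing.resolve_left (not_not.2 heq)
    rw [not_or, not_not, not_not] at hpart
    have hres : Res A (6 * ptX (Point.some x y h) ^ 2 +
        ((W.map (Int.castRingHom ℚ))⁄Qb).b₂ * ptX (Point.some x y h) +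
        ((W.map (Int.castRingHom ℚ))⁄Qb).b₄)
        (6 * residue A ⟨x, hx'⟩ ^ 2 + (W.map (Int.castRingHom (ResidueField A))).b₂ *
          residue A ⟨x, hx'⟩ + (W.map (Int.castRingHom (ResidueField A))).b₄) := by
      simp only [ptX_some]
      exact (((Res.ofNat 6).mul (hrx.pow 2)).add ((res_b₂ hR).mul hrx)).add (res_b₄ hR)
    rw [← hres.eq_zero_iff]
    have h1 := hpart.1
    have h2 := hpart.2
    simp only [WeierstrassCurve.b₂, WeierstrassCurve.b₄]
    linear_combination (-2) * h1 + (W.map (Int.castRingHom (ResidueField A))).a₁ * h2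

end Node

section Main

variable {p : ℕ} (hp : p.Prime) (hp2 : p ≠ 2) (W : WeierstrassCurve ℤ) {ℓ : ℕ} (hℓ : ℓ.Prime)
  (hℓp : ℓ ≠ p) (hℓΔ : (ℓ : ℤ) ∣ W.Δ) (hℓc₄ : ¬ (ℓ : ℤ) ∣ W.c₄)
  (A : ValuationSubring Qb) (hA : A.LiesOverPrime ℓ)
  (Q : ((W.map (Int.castRingHom ℚ))⁄Qb).Point) (hQord : addOrderOf Q = p)

include hp hℓ hℓp hA hQord in
/-- all multiples of `Q` are `A`-integral -/
theorem ptX_ptY_mem (k : ℕ) : ptX (k • Q) ∈ A ∧ ptY (k • Q) ∈ A := by
  have hℓp' : ¬ ℓ ∣ p := fun hd => hℓp ((Nat.prime_dvd_prime_iff_eq hℓ hp).1 hd)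
  have hpQ : p • Q = 0 := by rw [← hQord]; exact addOrderOf_nsmul_eq_zero Q
  exact localIntStmt W hℓ A hA (k • Q) p hℓp' (by rw [smul_comm, hpQ, nsmul_zero])

open Classical in
include hp hℓ hℓp hℓΔ hℓc₄ hA hQord in
/-- the nodal reduction of `Q ∈ E⁰` and of its multiples -/
theorem exists_nodal_reduction (hzero : W.InZeroComponentAt A Q) :
    ∃ Qr : (W.map (Int.castRingHom (ResidueField A))).toAffine.Point,
      (∀ j : ℕ, RedPt A (j • Q) (j • Qr)) ∧ addOrderOf Qr = p ∧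
      (W.map (Int.castRingHom (ResidueField A))).Δ = 0 ∧
      (W.map (Int.castRingHom (ResidueField A))).c₄ ≠ 0 := by
  classical
  have hR := redCurve_int_cast W A
  have hℓp' : ¬ ℓ ∣ p := fun h => hℓp ((Nat.prime_dvd_prime_iff_eq hℓ hp).1 h)
  have hvp : A.valuation ((p : ℕ) : Qb) = 1 := val_natCast_eq_one_of_not_dvd hℓ hA hℓp'
  have hpQ : p • Q = 0 := by rw [← hQord]; exact addOrderOf_nsmul_eq_zero Q
  have hQ0 : Q ≠ 0 := by
    rintro rfl
    rw [addOrderOf_zero] at hQord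
    exact hp.one_lt.ne hQord
  obtain ⟨Qr, hQr⟩ := (inZero_iff_exists_redPt W A hvp hpQ).1 hzero
  have hmul : ∀ j : ℕ, RedPt A (j • Q) (j • Qr) := fun j => RedPt.nsmul hR hvp hQr hpQ j
  have hQr0 : Qr ≠ 0 := fun h => hQ0 (hQr.eq_zero_iff.2 h)
  have hpQr : p • Qr = 0 := by
    have := hmul p
    rw [hpQ] at this
    exact this.eq_zero_iff.1 rfl
  have hordr : addOrderOf Qr = p := by
    have : Fact p.Prime := ⟨hp⟩
    exact addOrderOf_eq_prime hpQr hQr0
  refine ⟨Qr, hmul, hordr, ?_, ?_⟩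
  · have hres := hR.res_Δ
    rw [bc_Δ] at hres
    exact hres.eq_zero_iff.mpr (val_intCast_lt_one_of_dvd hℓ hA hℓΔ)
  · have hres := hR.res_c₄
    rw [bc_c₄] at hres
    exact hres.ne_zero_iff.mpr ((val_intCast_eq_one_iff hℓ hA _).mpr hℓc₄)

include hp hp2 hℓ hℓp hℓΔ hℓc₄ hA hQord in
/-- `∏ψ₂(kQ)` is a unit at every `ℓ ≠ p` (including `2`, `3`) when `Q ∈ E⁰` -/
theorem val_veluPsi_eq_one (hzero : W.InZeroComponentAt A Q) :
    A.valuation (veluPsi _ Q p) = 1 := by
  classical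
  have hR := redCurve_int_cast W A
  obtain ⟨Qr, hmul, hordr, hΔb, hc₄b⟩ :=
    exists_nodal_reduction hp W hℓ hℓp hℓΔ hℓc₄ A hA Q hQord hzero
  have : IsAlgClosed (ResidueField A) := Fermat.Agent.S18lib.Gink.isAlgClosed_residueField A
  have hres := res_veluPsi hR hmul p
  rw [← hres.ne_zero_iff, veluPsi, Finset.prod_ne_zero_iff]
  intro j hj
  rw [Finset.mem_Icc] at hj
  refine psi2_nsmul_ne_zero _ hΔb hc₄b hp hp2 Qr hordr fun hdvd => ?_
  have := Nat.le_of_dvd (by omega) hdvd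
  have := hp.pos
  omega

include hp hp2 hℓ hℓp hℓΔ hℓc₄ hA hQord in
/-- Vélu's `c₄(E/⟨Q⟩)` is a unit at every multiplicative `ℓ ≠ p` -/
theorem val_veluC4_eq_one : A.valuation (veluC4 _ Q p) = 1 := by
  classical
  have hR := redCurve_int_cast W A
  have hℓp' : ¬ ℓ ∣ p := fun h => hℓp ((Nat.prime_dvd_prime_iff_eq hℓ hp).1 h)
  have hvp : A.valuation ((p : ℕ) : Qb) = 1 := val_natCast_eq_one_of_not_dvd hℓ hA hℓp'
  have hpQ : p • Q = 0 := by rw [← hQord]; exact addOrderOf_nsmul_eq_zero Q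
  have hvc₄ : A.valuation ((W.c₄ : ℤ) : Qb) = 1 := (val_intCast_eq_one_iff hℓ hA _).mpr hℓc₄
  have hnat : ∀ n : ℕ, ¬ ℓ ∣ n → ((n : ℕ) : ResidueField A) ≠ 0 := fun n hn =>
    (Res.natCast (A := A) n).ne_zero_iff.mpr (val_natCast_eq_one_of_not_dvd hℓ hA hn)
  by_cases hzero : W.InZeroComponentAt A Q
  · -- the kernel is in `E⁰`
    obtain ⟨Qr, hmul, hordr, hΔb, hc₄b⟩ :=
      exists_nodal_reduction hp W hℓ hℓp hℓΔ hℓc₄ A hA Q hQord hzero
    have : IsAlgClosed (ResidueField A) := Fermat.Agent.S18lib.Gink.isAlgClosed_residueField A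
    have hres := res_veluC4 hR hmul p
    rw [← hres.ne_zero_iff]
    by_cases h240 : ℓ ∣ 240
    · -- `240 = 0` in the residue field
      have h240' : (240 : ResidueField A) = 0 := by
        have h := (Res.natCast (A := A) 240).eq_zero_iff.mpr (by
          have := val_intCast_lt_one_of_dvd (L := Qb) hℓ hA (n := 240)
            (by exact_mod_cast h240)
          simpa using this)
        simpa using h
      rw [veluC4, h240', zero_mul, add_zero]
      exact hc₄b
    · have hdvd : ∀ q : ℕ, q ∣ 240 → ¬ ℓ ∣ q := fun q hq h => h240 (h.trans hq)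
      have h2 : (2 : ResidueField A) ≠ 0 := by
        have := hnat 2 (hdvd 2 (by norm_num))
        simpa using this
      have h3 : (3 : ResidueField A) ≠ 0 := by
        have := hnat 3 (hdvd 3 (by norm_num))
        simpa using this
      have h5 : (5 : ResidueField A) ≠ 0 := by
        have := hnat 5 (hdvd 5 (by norm_num))
        simpa using this
      rw [veluC4_eq _ hΔb hc₄b hp hp2 Qr hordr h2 h3 h5]
      exact mul_ne_zero hc₄b (pow_ne_zero _ (hnat p hℓp'))
  · -- the kernel is off `E⁰`: every term of `t` reduces to `0`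
    have hterm : ∀ j ∈ Finset.Icc 1 ((p - 1) / 2),
        A.valuation (6 * ptX (j • Q) ^ 2 + ((W.map (Int.castRingHom ℚ))⁄Qb).b₂ * ptX (j • Q) +
          ((W.map (Int.castRingHom ℚ))⁄Qb).b₄) < 1 := by
      intro j hj
      rw [Finset.mem_Icc] at hj
      have hpj : ¬ p ∣ j := fun hd => by
        have := Nat.le_of_dvd (by omega) hd
        have := hp.pos
        omega
      have hint := ptX_ptY_mem hp W hℓ hℓp A hA Q hQord j
      have hj0 : j • Q ≠ 0 := by
        intro h0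
        exact hpj (hQord ▸ addOrderOf_dvd_of_nsmul_eq_zero h0)
      exact val_veluTerm_lt_one W A hj0 hint.1 hint.2
        (not_inZero_nsmul W A hp hvp hpQ hzero hpj)
    have hT : A.valuation (veluT _ Q p) < 1 := by
      rw [veluT]
      exact Valuation.map_sum_lt _ one_ne_zero hterm
    have h240 : A.valuation ((240 : Qb) * veluT _ Q p) < 1 := by
      rw [map_mul]
      have h1 : A.valuation (240 : Qb) ≤ 1 := (A.valuation_le_one_iff _).2 (ofNat_mem A 240)
      exact mul_lt_of_le_one_of_lt h1 hT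
    rw [veluC4, bc_c₄, Valuation.map_add_eq_of_lt_left _ (by rw [hvc₄]; exact h240), hvc₄]

include hp hℓ hℓp hA hQord in
/-- `∏ψ₂(kQ)` is a non-unit when `Q ∉ E⁰` -/
theorem val_veluPsi_lt_one (hnzero : ¬ W.InZeroComponentAt A Q) :
    A.valuation (veluPsi _ Q p) < 1 := by
  classical
  have hQ0 : Q ≠ 0 := by
    rintro rfl
    rw [addOrderOf_zero] at hQord
    exact hp.one_lt.ne hQord
  have hint := ptX_ptY_mem hp W hℓ hℓp A hA Q hQord
  obtain ⟨e1, -, e3, -, -, -⟩ := baseChange_int_coeffs W (K := Qb)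
  have hpsi : ∀ k : ℕ, psi2 _ (k • Q) ∈ A := fun k => by
    simp only [psi2, e1, e3]
    exact A.add_mem _ _ (A.add_mem _ _ (A.mul_mem _ _ (ofNat_mem A 2) (hint k).2)
      (A.mul_mem _ _ (intCast_mem A _) (hint k).1)) (intCast_mem A _)
  have hint1 := hint 1
  rw [one_smul] at hint1
  have hnode : A.valuation (psi2 _ Q) < 1 := localNodeStmt W A Q hQ0 hint1.1 hint1.2 hnzero
  have h1mem : 1 ∈ Finset.Icc 1 (p - 1) := by
    rw [Finset.mem_Icc]
    have := hp.two_le
    omega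
  rw [veluPsi, ← Finset.mul_prod_erase _ _ h1mem, one_smul, map_mul]
  refine mul_lt_of_lt_of_le_one hnode ((A.valuation_le_one_iff _).2 ?_)
  exact prod_mem fun k _ => hpsi k

include hp hp2 hℓ hℓp hℓΔ hℓc₄ hA hQord in
/-- the discriminant of Vélu's model when the kernel is in `E⁰`: `v(c₄'³ - c₆'²) = v(1728) v(Δ)^p` -/
theorem val_veluDisc (hzero : W.InZeroComponentAt A Q)
    (hdisc : (veluC4 _ Q p ^ 3 - veluC6 _ Q p ^ 2) * veluPsi _ Q p ^ 4 =
      1728 * ((W.map (Int.castRingHom ℚ))⁄Qb).Δ ^ p) :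
    A.valuation (veluC4 _ Q p ^ 3 - veluC6 _ Q p ^ 2) =
      A.valuation (1728 : Qb) * A.valuation ((W.Δ : ℤ) : Qb) ^ p := by
  have h := congrArg A.valuation hdisc
  rw [map_mul, map_pow, val_veluPsi_eq_one hp hp2 W hℓ hℓp hℓΔ hℓc₄ A hA Q hQord hzero, one_pow,
    mul_one, map_mul, map_pow, bc_Δ] at h
  exact h

include hp hℓ hℓp hA hQord in
/-- Vélu's sums are `A`-integral at every `ℓ ≠ p` (any reduction type) -/
theorem velu_mem : veluT _ Q p ∈ A ∧ veluW _ Q p ∈ A ∧ veluC4 _ Q p ∈ A ∧ veluC6 _ Q p ∈ A := by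
  have hint := ptX_ptY_mem hp W hℓ hℓp A hA Q hQord
  have hT : veluT _ Q p ∈ A := by
    simp only [veluT, bc_b₂, bc_b₄]
    refine sum_mem fun k _ => ?_
    exact A.add_mem _ _ (A.add_mem _ _ (A.mul_mem _ _ (ofNat_mem A 6) (pow_mem (hint k).1 2))
      (A.mul_mem _ _ (intCast_mem A _) (hint k).1)) (intCast_mem A _)
  have hW : veluW _ Q p ∈ A := by
    simp only [veluW, bc_b₂, bc_b₄, bc_b₆]
    refine sum_mem fun k _ => ?_
    exact A.add_mem _ _ (A.add_mem _ _ (A.add_mem _ _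
      (A.mul_mem _ _ (ofNat_mem A 10) (pow_mem (hint k).1 3))
      (A.mul_mem _ _ (A.mul_mem _ _ (ofNat_mem A 2) (intCast_mem A _)) (pow_mem (hint k).1 2)))
      (A.mul_mem _ _ (A.mul_mem _ _ (ofNat_mem A 3) (intCast_mem A _)) (hint k).1))
      (intCast_mem A _)
  refine ⟨hT, hW, ?_, ?_⟩
  · rw [veluC4, bc_c₄]
    exact A.add_mem _ _ (intCast_mem A _) (A.mul_mem _ _ (ofNat_mem A 240) hT)
  · rw [veluC6, bc_c₆, bc_b₂]
    exact A.add_mem _ _ (A.add_mem _ _ (intCast_mem A _)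
      (A.mul_mem _ _ (A.mul_mem _ _ (ofNat_mem A 504) (intCast_mem A _)) hT))
      (A.mul_mem _ _ (ofNat_mem A 6048) hW)

end Main

end Fermat.Agent.S12lib.Loc
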